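import Fermat.Agent.Roth.Field.SIntegral
import Mathlib.Analysis.Complex.Polynomial.Basic
import Mathlib.FieldTheory.IntermediateField.Adjoin.Basic

/-!
# Prime divisors of the values of a polynomial

If `α ≠ β` are roots of `f` and the primes of `f n` are bounded, `n - α` and `n - β` are `S`-units
of `ℚ (α, β)` with difference `β - α`, so there are finitely many such `n`.
-/

set_option autoImplicit false

noncomputable section

namespace FA.PolynomialPrimes

open NumberField IsDedekindDomain Polynomial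

variable {K : Type*} [Field K] [NumberField K]

theorem valuation_natCast_eq_one {v : HeightOneSpectrum (𝓞 K)} {N : ℕ}
    (hv : ∀ q : ℕ, q.Prime → q < N → v.valuation K (q : K) = 1) : ∀ m : ℕ, m ≠ 0 →
    (∀ q : ℕ, q.Prime → q ∣ m → q < N) → v.valuation K (m : K) = 1 := by
  intro m
  induction m using Nat.recOnMul with
  | zero => exact fun h => absurd rfl h
  | one => simp
  | prime p hp => exact fun _ h => hv p hp (h p hp dvd_rfl)
  | mul a b iha ihb =>
    intro h0 h
    obtain ⟨ha, hb⟩ := mul_ne_zero_iff.1 h0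
    rw [Nat.cast_mul, map_mul, iha ha fun q hq hd => h q hq (hd.mul_right b),
      ihb hb fun q hq hd => h q hq (hd.mul_left a), mul_one]

theorem valuation_intCast_le_one (v : HeightOneSpectrum (𝓞 K)) (n : ℤ) :
    v.valuation K (n : K) ≤ 1 := by
  simpa using v.valuation_le_one (K := K) (n : 𝓞 K)

/-- A factor `n - α` of a unit value is a unit. -/
theorem valuation_sub_root_eq_one {v : HeightOneSpectrum (𝓞 K)} {f : ℤ[X]} {α : K} {n : ℤ}
    (hα : v.valuation K α ≤ 1) (hroot : aeval α f = 0)
    (hfn : v.valuation K ((f.eval n : ℤ) : K) = 1) : v.valuation K ((n : K) - α) = 1 := by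
  set O := (v.valuation K).valuationSubring
  set a : O := ⟨α, hα⟩
  have h : ((n : O) - a) ∣ aeval (n : O) f - aeval a f := by
    simp only [aeval_def, ← eval_map]
    exact sub_dvd_eval_sub _ _ _
  obtain ⟨c, hc⟩ := h
  have hc' := congrArg (fun x : O => (x : K)) hc
  have e : ∀ x : O, ((aeval x f : O) : K) = aeval (x : K) f := fun x =>
    (aeval_algHom_apply (O.subtype.toIntAlgHom) x f).symm
  have e1 : ((aeval a f : O) : K) = 0 := by rw [e]; exact hroot
  have e2 : ((aeval (n : O) f : O) : K) = ((f.eval n : ℤ) : K) := by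
    rw [e, show ((n : O) : K) = (n : K) by simp, aeval_def, eval₂_at_intCast]
    simp
  simp only [AddSubgroupClass.coe_sub, MulMemClass.coe_mul, e1, e2, sub_zero] at hc'
  rw [hc', map_mul] at hfn
  have h1 : v.valuation K ((n : K) - α) ≤ 1 :=
    (v.valuation K).map_sub_le (valuation_intCast_le_one v n) hα
  have h2 : v.valuation K (c : K) ≤ 1 := c.2
  refine le_antisymm h1 ?_
  calc (1 : _) = v.valuation K (((n : O) : K) - α) * v.valuation K (c : K) := hfn.symm
    _ ≤ v.valuation K ((n : K) - α) * 1 := by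
        refine mul_le_mul' ?_ h2
        simp
    _ = _ := mul_one _

/-- **Finitely many smooth values.** -/
theorem finite_smooth_values {f : ℤ[X]} {α β : K} (hne : α ≠ β) (hα : aeval α f = 0)
    (hβ : aeval β f = 0) (N : ℕ) :
    {n : ℤ | ∀ q : ℕ, q.Prime → N ≤ q → ¬(q : ℤ) ∣ f.eval n}.Finite := by
  set T : Set (HeightOneSpectrum (𝓞 K)) :=
    HeightOneSpectrum.Support (𝓞 K) α ∪ HeightOneSpectrum.Support (𝓞 K) β ∪
      ⋃ q ∈ Finset.range N, {v | q.Prime ∧ v.valuation K (q : K) ≠ 1}
  have hT : T.Finite := ((HeightOneSpectrum.Support.finite (𝓞 K) α).union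
    (HeightOneSpectrum.Support.finite (𝓞 K) β)).union ((Finset.range N).finite_toSet.biUnion
      fun q _ => by
        by_cases hq : q.Prime
        · exact (Roth.finite_valuation_ne_one (Nat.cast_ne_zero.2 hq.ne_zero)).subset fun v h => h.2
        · exact Set.finite_empty.subset fun v h => hq h.1)
  have hfin := Roth.finite_sunit_equation hT (one_ne_zero (α := K))
    (neg_ne_zero.2 one_ne_zero) (sub_ne_zero.2 hne.symm)
  refine Set.Finite.of_finite_image ((hfin.image fun p : T.unit K × T.unit K =>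
    ((p.1 : Kˣ) : K)).subset ?_) (f := fun n : ℤ => (n : K) - α) fun m _ n _ h => by simpa using h
  rintro _ ⟨n, hn, rfl⟩
  have hf0 : f.eval n ≠ 0 := fun h0 => by
    obtain ⟨q, hq1, hq2⟩ := N.exists_infinite_primes
    exact hn q hq2 hq1 (h0 ▸ dvd_zero _)
  have hval : ∀ γ : K, (∀ v ∉ T, v.valuation K γ ≤ 1) → aeval γ f = 0 →
      ∃ u : T.unit K, ((u : Kˣ) : K) = (n : K) - γ := by
    intro γ hγ hroot
    have hunit : ∀ v ∉ T, v.valuation K ((n : K) - γ) = 1 := fun v hv => by
      refine valuation_sub_root_eq_one (hγ v hv) hroot ?_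
      have hq : ∀ q : ℕ, q.Prime → q < N → v.valuation K (q : K) = 1 := fun q hq hqN =>
        by_contra fun h => hv (Or.inr (Set.mem_biUnion (Finset.mem_range.2 hqN) ⟨hq, h⟩))
      have h := valuation_natCast_eq_one hq _ (Int.natAbs_ne_zero.2 hf0) fun q hq hd =>
        not_le.1 fun hle => hn q hq hle (Int.natCast_dvd.2 hd)
      rcases Int.natAbs_eq (f.eval n) with e | e <;> rw [e]
      · rw [Int.cast_natCast]; exact h
      · rw [Int.cast_neg, Int.cast_natCast, Valuation.map_neg]; exact h
    refine Roth.exists_sunit (fun h => hf0 ?_) hunit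
    have h1 : aeval ((n : ℤ) : K) f = 0 := by rw [sub_eq_zero.1 h]; exact hroot
    rw [aeval_def, eval₂_at_intCast] at h1
    simpa using h1
  obtain ⟨u, hu⟩ := hval α (fun v hv => not_lt.1 fun h => hv (Or.inl (Or.inl h))) hα
  obtain ⟨w, hw⟩ := hval β (fun v hv => not_lt.1 fun h => hv (Or.inl (Or.inr h))) hβ
  refine ⟨(u, w), ?_, hu⟩
  show 1 * ((u : Kˣ) : K) + -1 * ((w : Kˣ) : K) = β - α
  rw [hu, hw]
  ring

/-- The same for two complex roots. -/
theorem finite_smooth_values_complex {f : ℤ[X]} {α β : ℂ} (hne : α ≠ β) (hα : aeval α f = 0)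
    (hβ : aeval β f = 0) (N : ℕ) :
    {n : ℤ | ∀ q : ℕ, q.Prime → N ≤ q → ¬(q : ℤ) ∣ f.eval n}.Finite := by
  rcases eq_or_ne f 0 with rfl | hf
  · refine Set.finite_empty.subset fun n hn => ?_
    obtain ⟨q, hq1, hq2⟩ := N.exists_infinite_primes
    exact absurd (by simp) (hn q hq2 hq1)
  have hint : ∀ γ : ℂ, aeval γ f = 0 → IsIntegral ℚ γ := fun γ hγ =>
    IsAlgebraic.isIntegral ⟨f.map (algebraMap ℤ ℚ),
      (Polynomial.map_ne_zero_iff (algebraMap ℤ ℚ).injective_int).2 hf, by
        rw [aeval_map_algebraMap]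
        exact hγ⟩
  let F := IntermediateField.adjoin ℚ ({α, β} : Set ℂ)
  have : FiniteDimensional ℚ F := IntermediateField.finiteDimensional_adjoin fun γ hγ => by
    rcases hγ with rfl | rfl
    exacts [hint _ hα, hint _ hβ]
  have : NumberField F := NumberField.of_module_finite ℚ F
  set a : F := ⟨α, IntermediateField.subset_adjoin ℚ _ (Set.mem_insert _ _)⟩
  set b : F := ⟨β, IntermediateField.subset_adjoin ℚ _ (Set.mem_insert_of_mem _ rfl)⟩
  have hz : ∀ (x : F), aeval (x : ℂ) f = 0 → aeval x f = 0 := fun x hx => by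
    apply Subtype.coe_injective
    show ((aeval x f : F) : ℂ) = ((0 : F) : ℂ)
    rw [ZeroMemClass.coe_zero, ← hx]
    exact (aeval_algHom_apply (F.val.restrictScalars ℤ) x f).symm
  exact finite_smooth_values (K := F) (α := a) (β := b)
    (fun h => hne (congrArg Subtype.val h)) (hz a hα) (hz b hβ) N

end FA.PolynomialPrimes

end
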